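-- Statement S20: dim S₂(Γ₀(N)) = genus formula (team proof along the graded-free route;
-- assembly by helper8, work packages A–H by helper1–helper9).
import Fermat.Statements.S20
import Fermat.Agent.Lib.RR.Assembly
import Fermat.Agent.Lib.RR.FLower
import Fermat.Agent.Lib.RR.G1Iface
import Fermat.Agent.Lib.RR.G1Counts
import Fermat.Agent.Lib.RR.G2Iface

set_option autoImplicit false
open CuspForm

namespace Fermat.Agent.S20

open Fermat.Agent.Lib.RR in
theorem result (N : ℕ) [NeZero N] :
    (Module.finrank ℂ (CuspForm (CongruenceSubgroup.Gamma0 N) 2) : ℚ) = ModularCurve.genusFormula N :=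
  asm_finrank_cuspForm_two N flow_MF flow_CF (g1_ifaceIndep_MF N) (g1_ifaceIndep_CF N)
    (g1_ifaceCounts N (g1_ifaceIndep_MF N)) (g2_ifaceMF N) (g2_ifaceCF N)

end Fermat.Agent.S20
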