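-- Statement S22: the Hecke algebra of cusp forms is a finitely generated ℤ-module.
import Fermat.Statements.S22
import Fermat.Agent.Lib.ES.Step0
import Fermat.Agent.Lib.ES.Final
import Fermat.Agent.Lib.ES.Cocycle
import Fermat.Agent.Lib.ES.Injective
import Fermat.Agent.Lib.ES.HeckeCompat

set_option autoImplicit false
open CuspForm

namespace Fermat.Agent.S22

theorem result (N : ℕ) [NeZero N] (k : ℤ) (S : Set ℕ) :
    Module.Finite ℤ (CuspForm.heckeAlgebra N k S) :=
  Fermat.Agent.Lib.ES.finite_heckeAlgebra_of_main N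
    (fun w S => Fermat.Agent.Lib.ES.finite_heckeAlgebra_of_cocycle N w S
      (Fermat.Agent.Lib.ES.cocycle N w) Fermat.Agent.Lib.ES.cocycle_one
      (fun _ hγ _ hh f => Fermat.Agent.Lib.ES.cocycle_mul hγ hh f)
      Fermat.Agent.Lib.ES.eq_zero_of_forall_cocycle_eq_zero
      (Fermat.Agent.Lib.ES.cocycle_hT N w) (Fermat.Agent.Lib.ES.cocycle_hU N w)) k S

end Fermat.Agent.S22
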