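-- Statement S21 (row 20): Eichler–Shimura — the period pairing `periodHomPair N` is injective and
-- its image is exactly the space of parabolic homomorphisms `Γ₀(N) → ℂ`.
-- Team proof: WP P (helper1: equivariant primitives, linearity, range ⊆ parabolic, final dimension
-- count `pmP_S21_of`), WP I (helper6: injectivity via the maximum modulus principle on Γ₀(N)\ℍ),
-- WP D (helper3: dim Hom_par ≤ 2 g via the Shapiro cocycle), and S20 (dim S₂ = g).
import Fermat.Statements.S21
import Fermat.Agent.S20
import Fermat.Agent.Lib.Period.Assembly
import Fermat.Agent.Lib.Period.InjMain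
import Fermat.Agent.Lib.Period.ParDim

set_option autoImplicit false
open ModularCurve

namespace Fermat.Agent.S21

open Fermat.Agent.Lib.Period in
theorem result (N : ℕ) [NeZero N] :
    Function.Injective (ModularCurve.periodHomPair N)
      ∧ LinearMap.range (ModularCurve.periodHomPair N)
          = ModularCurve.Period.parabolicHoms ℂ (CongruenceSubgroup.Gamma0 N) ℂ :=
  pmP_S21_of N
    (pmI_periodHomPair_injective (pmP_existsPeriodMapLinear N) (pmP_hasEquivariantPrimitive N))
    (Fermat.Agent.S20.result N) (pmD_finrank_parabolicHoms_le N)

end Fermat.Agent.S21
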