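-- Statement S23: S_2(Gamma0 N) has an integral structure (helper4; lead's abstract duality, helper9 lattice, helper1 Hecke stability).
import Fermat.Statements.S23
import Fermat.Agent.S21
import Fermat.Agent.Lib.Integral.Final
import Fermat.Agent.Lib.Integral.HeckeStable

set_option autoImplicit false
open CuspForm

namespace Fermat.Agent.S23

theorem result (N : ℕ) [NeZero N] : CuspForm.HasIntegralStructure N 2 :=
  Fermat.Agent.Lib.Integral.intF_hasIntegralStructure N (Fermat.Agent.S21.result N)
    (Fermat.Agent.Lib.Integral.intHk_hgens N)

end Fermat.Agent.S23
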