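-- S05 (row 5): the mod-p Galois representation of the Frey curve is unramified at every prime q ≠ 2, p.
-- Team proof (Fermat/Agent/Lib/Frey/*), elementary, no Tate curve: Legendre model Y² = X(X−δ)(X−ε)
-- (helper4: architecture, Defs, node case), difference lemma L1 (helper9), kernel of reduction L2
-- (helper8 E1, helper1 E1Sub), unsigned level L3 (helper3 UH3*, helper2 ULevel*), abstract theorems
-- (helper1 Abstract*), variable changes (helper7 VarChange*), ℚ-valued valuation (helper7 Ord*,
-- helper5 FqOrd*), arithmetic + inertia-fixed point (helper5 FqArith/FqPoint), Frey → Legendre chain,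
-- case split and assembly (helper6 FqChain/FqTransfer/FqMain/FqFinal).
import Fermat.Statements.S05
import Fermat.Agent.Lib.Frey.FqFinal

set_option autoImplicit false
open WeierstrassCurve WeierstrassCurve.Affine WeierstrassCurve.Affine.Point
open CuspForm ModularFormClass UpperHalfPlane
open FreyPackage

namespace Fermat.Agent.S05

theorem result (P : FreyPackage) {q : ℕ} (hq : q.Prime) (hq2 : q ≠ 2) (hqp : q ≠ P.p) : P.GaloisRepUnramifiedAt q :=
  Fermat.Agent.Lib.Frey.fq_frey_unramified P hq hq2 hqp

end Fermat.Agent.S05
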