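-- Statement S17 (Mordell–Weil for `J₀(N)(ℚ)`, `N ≥ 5` prime): Programme MW.
-- Height half (architecture `Lib/S17/Iface.lean`, assembly `Lib/S17/HMain.lean`) + weak
-- Mordell–Weil half (`Lib/S17/WIface.lean`, `Lib/S17/ZWMW.lean`); final assembly `Lib/S17/HFinal.lean`.
import Fermat.Statements.S17
import Fermat.Agent.Lib.S17.HFinal

set_option autoImplicit false
open ModularCurve AlgebraicCurve
open ModularCurve ModularCurve.JZero

namespace Fermat.Agent.S17

theorem result (N : ℕ) [NeZero N] (hN : N.Prime) (hN5 : 5 ≤ N) :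
    AddGroup.FG ↥(FixedPoints.addSubgroup ((AlgebraicClosure ℚ) ≃ₐ[ℚ] (AlgebraicClosure ℚ)) (JZero N)) :=
  Fermat.Agent.Lib.S17.s17h_target N hN hN5

end Fermat.Agent.S17
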