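import Fermat.Statements.S58
-- import your own Fermat.Agent.* helpers here
import Fermat.Agent.Lib.S58.WTop
import Fermat.Agent.Lib.S58.OLevel
import Fermat.Agent.Lib.S58.OExact
import Fermat.Agent.Lib.S58.OBound
import Fermat.Agent.Lib.S58.ORed
import Fermat.Agent.Lib.S58.E1Close
import Fermat.Agent.Lib.S58.MultFixClose
import Fermat.Agent.Lib.S58.XEigenChar
import Fermat.Agent.Lib.S58.HOdd
import Fermat.Agent.Lib.S58.HTransfer
import Fermat.Agent.Lib.S58.FCore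
import Fermat.Agent.Lib.S58.QStabForm

set_option autoImplicit false
set_option autoImplicit false
open WeierstrassCurve

namespace Fermat.Agent.S58

theorem result
    (W : WeierstrassCurve ℤ) (hss : W.IsSemistableModel) (N : ℕ)
    (p : ℕ) [Fact p.Prime] (hp2 : p ≠ 2) (hirr : W.ModRepIsIrreducible p)
    (hp2N : ¬ p ^ 2 ∣ N)
    (hN : W.IsModularModelOfLevel N) (hbad : ∀ ℓ : ℕ, ℓ.Prime → (ℓ : ℤ) ∣ W.Δ → ℓ ∣ N)
    (hN3 : ∀ q : ℕ, q.Prime → ¬ q ^ 3 ∣ N) :
    W.IsModularModelOfLevel W.conductorLevel := by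
  exact Fermat.Agent.Lib.S58.s58w_main Fermat.Agent.Lib.S58.s58o_ellLevel
    Fermat.Agent.Lib.S58.s58o_ellExact
    (Fermat.Agent.Lib.S58.s58o_ellFrob_of_core Fermat.Agent.Lib.S58.s58f_frobCore)
    Fermat.Agent.Lib.S58.s58e_ellUnram Fermat.Agent.Lib.S58.s58m_ellMultFix
    Fermat.Agent.Lib.S58.s58o_ellBound Fermat.Agent.Lib.S58.s58x_eigenCharZ
    Fermat.Agent.Lib.S58.s58q_oldLift Fermat.Agent.Lib.S58.s58h_involutionCyc
    Fermat.Agent.Lib.S58.s58h_absIrredTransfer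
    W hss N p hp2 hirr hp2N hN hbad hN3

end Fermat.Agent.S58
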