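-- Statement S33 (row 32): ordinarity of the Hecke Galois representation at `p ∥ N` (P-AT-P programme).
-- The statement below is byte-identical to the frozen statement
-- CuspForm.HeckeGaloisRepDatum.FermatFrozen.S33 (Fermat/Statements/S33.lean).
import Fermat.Statements.S33
import Fermat.Agent.Lib.S33.LTop
import Fermat.Agent.Lib.S33.TPTop
import Fermat.Agent.Lib.S33.KumPSsPackT
import Fermat.Agent.Lib.S33.DescNoMu

set_option autoImplicit false
variable {p : ℕ} {N : ℕ} [NeZero N] {S : Finset ℕ}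
  {𝒪 : Type} [CommRing 𝒪] [IsDomain 𝒪] [IsDiscreteValuationRing 𝒪]
  [IsAdicComplete (IsLocalRing.maximalIdeal 𝒪) 𝒪]
  {θ : CuspForm.heckeAlgebra N 2 (↑S : Set ℕ) →+* IsLocalRing.ResidueField 𝒪}
  {T : Type} [CommRing T] [IsLocalRing T] [IsNoetherianRing T]
  [IsAdicComplete (IsLocalRing.maximalIdeal T) T] [Algebra 𝒪 T] [IsLocalHom (algebraMap 𝒪 T)]
  [Module.Finite 𝒪 T] [Module.Free 𝒪 T]
open CuspForm CuspForm.HeckeGaloisRepDatum

namespace Fermat.Agent.S33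

open Fermat.Agent.Lib.S33 in
/-- the intrinsic J-side output of Stage 2 of the P-AT-P programme: (U) + (M°) at every S18-good level
`M p` (`5 ≤ p`: `j`-chart, helper8's Σ-datum; `p = 3`, `2 ∣ M`: `t₂`-chart, helper9's Σ-datum). -/
theorem umj : s33_UMJ :=
  s33t_UMJ_of_three fun M _ p _ hp3 h2M hM P hP =>
    s33y_ssDatumC_t2 M p hM.1 P (by omega) h2M hP (s33k_sd_SSDatumC_three M p hM.1 P hp3 h2M)

theorem result
    [Finite (IsLocalRing.ResidueField 𝒪)] [CharZero 𝒪]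
    (hp : p.Prime) (hp2 : p ≠ 2) (hp𝒪 : (p : 𝒪) ∈ IsLocalRing.maximalIdeal 𝒪) (hN : p ∣ N ∧ ¬ p ^ 2 ∣ N)
    (hNS : ∀ q : ℕ, q.Prime → q ∣ N → q ∈ S)
    (H : CuspForm.HeckeGaloisRepDatum N (↑S : Set ℕ) 𝒪 θ T)
    (hres : (GaloisRepAdic.ofResidualGaloisRep H.ρ.residual).IsOrdinaryAt p) :
    H.ρ.IsOrdinaryAt p :=
  Fermat.Agent.Lib.S33.s33l_S33_of_UMJ umj Fermat.Agent.Lib.S33.s33_noMuLine hp hp2 hp𝒪 hN hNS H hres

end Fermat.Agent.S33
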