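-- Statement S54 (row 48): R ↠ T.
import Fermat.Statements.S54
import Fermat.Agent.S54.Core
import Fermat.Agent.Lib.Frobenius.Exists

set_option autoImplicit false
open GaloisRep GaloisRep.DeformationRingData

namespace Fermat.Agent.S54

theorem frobeniusExists : FrobeniusExists :=
  fun ℓ hℓ => Fermat.Agent.Lib.Frobenius.exists_isFrobeniusAt ℓ hℓ

theorem result {𝒪 : Type} [CommRing 𝒪] [IsDomain 𝒪] [IsDiscreteValuationRing 𝒪] [IsAdicComplete (IsLocalRing.maximalIdeal 𝒪) 𝒪] {ρbar : ResidualGaloisRep (IsLocalRing.ResidueField 𝒪)} {𝒟 : ∀ ⦃A : Type⦄ [CommRing A] [IsLocalRing A] [Algebra 𝒪 A], GaloisRepAdic A → Prop} (D : GaloisRep.DeformationRingData 𝒪 ρbar 𝒟) {N : ℕ} [NeZero N] {S : Set ℕ} {θ : CuspForm.heckeAlgebra N 2 S →+* IsLocalRing.ResidueField 𝒪} {T : Type} [CommRing T] [IsLocalRing T] [IsNoetherianRing T] [IsAdicComplete (IsLocalRing.maximalIdeal T) T] [Algebra 𝒪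 T] [IsLocalHom (algebraMap 𝒪 T)] [Module.Finite 𝒪 T] [Module.Free 𝒪 T] (H : CuspForm.HeckeGaloisRepDatum N S 𝒪 θ T) (hS : ∀ q : ℕ, q.Prime → q ∣ N → q ∈ S) (h𝒟 : 𝒟 H.ρ) (hres : H.ρ.residual.IsEquiv (ρbar.baseChangeAlong (IsLocalRing.ResidueField.map (algebraMap 𝒪 T)))) : ∃ φ : D.R →ₐ[𝒪] T, Function.Surjective φ ∧ ∃ hφ : IsLocalHom (φ : D.R →+* T), (D.ρ.baseChangeAlong (φ : D.R →+* T) hφ).IsEquiv H.ρ :=
  result_of_frobeniusExists frobeniusExists D H hS h𝒟 hres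

end Fermat.Agent.S54
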