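-- Statement S30 (row 29): the p-adic Galois representation attached to a system of Hecke
-- eigenvalues `χ : 𝕋 →+* 𝒪'` (Plan L).  Assembly: `s30g_main` (Lib/S30/LFinal2) from
--   * EXT-A  `s30x_extA`            (ℤ_[p] → 𝒪'),
--   * DENS   `s30d_densContract`    (Frobenius density + continuity ⇒ scalar relation),
--   * TWO    `s30t2_twoC_of s30w_wilContract s30l_lattContract`  (Wiles' construction with the
--            complex conjugation + stable lattice ⇒ rank-two representation over 𝒪' itself),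
--   * TATE   `s30u_tateDatum N p`   (the p-adic Tate module of J₀(N) with Galois and Hecke actions),
--   * CYC    `s30y_cycDatum p`, `s30y_conj_datum p`  (the p-adic cyclotomic character).
import Fermat.Statements.S30
import Fermat.Agent.Lib.S30.LFinal2
import Fermat.Agent.Lib.S30.ExtA
import Fermat.Agent.Lib.S30.Dens
import Fermat.Agent.Lib.S30.TwoC
import Fermat.Agent.Lib.S30.WilesTwoC
import Fermat.Agent.Lib.S30.Latt
import Fermat.Agent.Lib.S30.TateDatum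
import Fermat.Agent.Lib.S30.CycB

set_option autoImplicit false
open Polynomial
open CuspForm

namespace Fermat.Agent.S30

theorem result :
    ∀ (p : ℕ) [Fact p.Prime] (N : ℕ) [NeZero N] (S : Finset ℕ)
      (_hpS : p ∈ S) (_hNS : ∀ q : ℕ, q.Prime → q ∣ N → q ∈ S)
      (𝒪' : Type) [CommRing 𝒪'] [IsDomain 𝒪'] [IsDiscreteValuationRing 𝒪']
      [IsAdicComplete (IsLocalRing.maximalIdeal 𝒪') 𝒪'] [Finite (IsLocalRing.ResidueField 𝒪')]
      [CharZero 𝒪'] (_hp𝒪' : (p : 𝒪') ∈ IsLocalRing.maximalIdeal 𝒪')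
      (χ : CuspForm.heckeAlgebra N 2 (↑S : Set ℕ) →+* 𝒪'),
      ∃ (𝒪'' : Type) (_ : CommRing 𝒪'') (_ : IsDomain 𝒪'') (_ : IsDiscreteValuationRing 𝒪'')
        (_ : IsAdicComplete (IsLocalRing.maximalIdeal 𝒪'') 𝒪'')
        (_ : Finite (IsLocalRing.ResidueField 𝒪'')) (_ : CharZero 𝒪'')
        (_ : Algebra 𝒪' 𝒪'') (_ : Module.Finite 𝒪' 𝒪'') (_ : IsLocalHom (algebraMap 𝒪' 𝒪'')),
      Function.Injective (algebraMap 𝒪' 𝒪'') ∧
      ∃ ρ : GaloisRepAdic 𝒪'',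
        (∀ (ℓ : ℕ) (hℓ : ℓ.Prime) (hℓN : ¬ ℓ ∣ N) (hℓS : ℓ ∉ (↑S : Set ℕ)),
          ∀ A : ValuationSubring (AlgebraicClosure ℚ), A.LiesOverPrime ℓ →
            ∀ σ : AlgebraicClosure ℚ ≃ₐ[ℚ] AlgebraicClosure ℚ, A.IsFrobeniusAt σ ℓ →
              LinearMap.charpoly (ρ.ρ σ) =
                X ^ 2 - C (algebraMap 𝒪' 𝒪'' (χ (CuspForm.heckeAlgebra.T hℓ hℓN hℓS))) * X
                  + C ((ℓ : 𝒪''))) ∧
        (∀ q : ℕ, q.Prime → ¬ q ∣ N → q ≠ p → ρ.IsUnramifiedAt q) := by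
  intro p _ N _ S hpS hNS 𝒪' _ _ _ _ _ _ hp χ
  exact Fermat.Agent.Lib.S30.s30g_main p Fermat.Agent.Lib.S30.s30x_extA
    Fermat.Agent.Lib.S30.s30d_densContract
    (Fermat.Agent.Lib.S30.s30t2_twoC_of Fermat.Agent.Lib.S30.s30w_wilContract
      Fermat.Agent.Lib.S30.s30l_lattContract)
    N (Fermat.Agent.Lib.S30.s30u_tateDatum N p) (Fermat.Agent.Lib.S30.s30y_cycDatum p)
    (Fermat.Agent.Lib.S30.s30y_conj_datum p) S hpS hNS 𝒪' hp χ

end Fermat.Agent.S30
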