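-- Statement S44 (row 38): level lowering at p for a conductor level (programme M-AT-P).
-- Proof: `s44t_main` (Lib/S44/Top.lean) applied to the leaves of the programme, assembled in
-- Lib/S44/Asm.lean (closed leaves) and Lib/S44/Asm3.lean (leaf [L4b] from [GR]).
import Fermat.Statements.S44
import Fermat.Agent.Lib.S44.Asm3

set_option autoImplicit false
open WeierstrassCurve WeierstrassCurve.Affine WeierstrassCurve.Affine.Point
open CuspForm ModularFormClass UpperHalfPlane
open FreyPackage

namespace Fermat.Agent.S44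

theorem result (P : FreyPackage) {N : ℕ} (hcond : P.IsConductorLevel N) (hpN : P.p ∣ N) (hirr : GaloisRepIsIrreducible (K := AlgebraicClosure ℚ) ℚ P.freyCurve P.p) (hmod : P.ModularRepOfLevel N) : ∃ M : ℕ, M ∣ N ∧ ¬ P.p ∣ M ∧ P.ModularRepOfLevel M :=
  Fermat.Agent.Lib.S44.s44_final P hcond hpN hirr hmod

end Fermat.Agent.S44
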