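-- Statement S02 (row 2): a solution of a^p + b^p = c^p in nonzero integers, p ≥ 5 prime, yields a Frey package.
import Fermat.Statements.S02

set_option autoImplicit false
open FreyPackage

namespace Fermat.Agent.S02

/-- Core constructor: coprime solution with `b` even. -/
theorem nonempty_of_coprime_even (a b c : ℤ) (ha : a ≠ 0) (hb : b ≠ 0) (hc : c ≠ 0)
    (p : ℕ) (pp : p.Prime) (hp5 : 5 ≤ p) (H : a ^ p + b ^ p = c ^ p)
    (hab : gcd a b = 1) (hb2 : (2 : ℤ) ∣ b) : Nonempty FreyPackage := by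
  have hpodd : Odd p := pp.odd_of_ne_two (by omega)
  have hb2' : (b : ZMod 2) = 0 := (ZMod.intCast_zmod_eq_zero_iff_dvd b 2).2 hb2
  -- a is odd
  have ha_odd : ¬ (2 : ℤ) ∣ a := by
    intro h2a
    have h2 : (2 : ℤ) ∣ gcd a b := dvd_gcd h2a hb2
    rw [hab] at h2
    norm_num at h2
  have hmod : a % 4 = 1 ∨ a % 4 = 3 := by
    have : a % 2 = 1 := by omega
    omega
  rcases hmod with h1 | h3
  · -- replace by negatives
    refine ⟨⟨-a, -b, -c, neg_ne_zero.2 ha, neg_ne_zero.2 hb, neg_ne_zero.2 hc, p, pp, hp5, ?_, ?_, ?_, ?_⟩⟩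
    · rw [hpodd.neg_pow, hpodd.neg_pow, hpodd.neg_pow, ← H]; ring
    · rw [gcd_neg, neg_gcd]; exact hab
    · have : ((-a : ℤ) : ZMod 4) = ((3 : ℤ) : ZMod 4) := by
        rw [ZMod.intCast_eq_intCast_iff_dvd_sub]
        omega
      simpa using this
    · simpa using hb2'
  · refine ⟨⟨a, b, c, ha, hb, hc, p, pp, hp5, H, hab, ?_, hb2'⟩⟩
    have : ((a : ℤ) : ZMod 4) = ((3 : ℤ) : ZMod 4) := by
      rw [ZMod.intCast_eq_intCast_iff_dvd_sub]
      omega
    simpa using this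

/-- Coprime solution: arrange parity. -/
theorem nonempty_of_coprime (a b c : ℤ) (ha : a ≠ 0) (hb : b ≠ 0) (hc : c ≠ 0)
    (p : ℕ) (pp : p.Prime) (hp5 : 5 ≤ p) (H : a ^ p + b ^ p = c ^ p)
    (hab : gcd a b = 1) : Nonempty FreyPackage := by
  have hpodd : Odd p := pp.odd_of_ne_two (by omega)
  have hp0 : 0 < p := by omega
  by_cases hb2 : (2 : ℤ) ∣ b
  · exact nonempty_of_coprime_even a b c ha hb hc p pp hp5 H hab hb2
  by_cases ha2 : (2 : ℤ) ∣ a
  · refine nonempty_of_coprime_even b a c hb ha hc p pp hp5 ?_ ?_ ha2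
    · rw [add_comm]; exact H
    · rw [gcd_comm]; exact hab
  -- both odd, so c is even
  have hc2 : (2 : ℤ) ∣ c := by
    have ha' : Odd a := by rw [Int.odd_iff]; omega
    have hb' : Odd b := by rw [Int.odd_iff]; omega
    have hcp : Even (c ^ p) := by
      rw [← H]; exact (ha'.pow).add_odd (hb'.pow)
    have : Even c := (Int.even_pow.1 hcp).1
    exact even_iff_two_dvd.1 this
  have hac : gcd a c = 1 := by rw [← gcdab_eq_gcdac hp0 H]; exact hab
  refine nonempty_of_coprime_even a (-c) (-b) ha (neg_ne_zero.2 hc) (neg_ne_zero.2 hb) p pp hp5 ?_ ?_ ?_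
  · rw [hpodd.neg_pow, hpodd.neg_pow, ← H]; ring
  · rw [gcd_neg]; exact hac
  · exact (dvd_neg).2 hc2

/-- Divide out the gcd. -/
theorem exists_coprime (a b c : ℤ) (ha : a ≠ 0) (hb : b ≠ 0) (hc : c ≠ 0)
    (p : ℕ) (hp0 : p ≠ 0) (H : a ^ p + b ^ p = c ^ p) :
    ∃ a' b' c' : ℤ, a' ≠ 0 ∧ b' ≠ 0 ∧ c' ≠ 0 ∧ a' ^ p + b' ^ p = c' ^ p ∧ gcd a' b' = 1 := by
  set d : ℤ := gcd a b with hd
  have hd0 : d ≠ 0 := by
    intro h
    rw [hd] at h
    exact ha ((gcd_eq_zero_iff a b).1 h).1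
  obtain ⟨a', ha'⟩ : d ∣ a := gcd_dvd_left a b
  obtain ⟨b', hb'⟩ : d ∣ b := gcd_dvd_right a b
  have hdc : d ∣ c := by
    rw [← Int.pow_dvd_pow_iff hp0, ← H]
    exact dvd_add (pow_dvd_pow_of_dvd ⟨a', ha'⟩ p) (pow_dvd_pow_of_dvd ⟨b', hb'⟩ p)
  obtain ⟨c', hc'⟩ := hdc
  have ha'0 : a' ≠ 0 := by rintro rfl; simp at ha'; exact ha ha'
  have hb'0 : b' ≠ 0 := by rintro rfl; simp at hb'; exact hb hb'
  have hc'0 : c' ≠ 0 := by rintro rfl; simp at hc'; exact hc hc'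
  refine ⟨a', b', c', ha'0, hb'0, hc'0, ?_, ?_⟩
  · have hdp : d ^ p ≠ 0 := pow_ne_zero p hd0
    apply mul_left_cancel₀ hdp
    rw [mul_add, ← mul_pow, ← mul_pow, ← mul_pow, ← ha', ← hb', ← hc', H]
  · have h1 : gcd (d * a') (d * b') = normalize d * gcd a' b' := gcd_mul_left d a' b'
    rw [← ha', ← hb', ← hd] at h1
    have hnd : normalize d = d := by rw [hd]; exact normalize_gcd a b
    rw [hnd] at h1
    have : d * 1 = d * gcd a' b' := by rw [mul_one]; exact h1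
    exact (mul_left_cancel₀ hd0 this).symm

theorem result (a b c : ℤ) (ha : a ≠ 0) (hb : b ≠ 0) (hc : c ≠ 0) (p : ℕ) (pp : p.Prime) (hp5 : 5 ≤ p) (H : a ^ p + b ^ p = c ^ p) : Nonempty FreyPackage := by
  obtain ⟨a', b', c', ha', hb', hc', H', hab'⟩ :=
    exists_coprime a b c ha hb hc p (by omega) H
  exact nonempty_of_coprime a' b' c' ha' hb' hc' p pp hp5 H' hab'

end Fermat.Agent.S02
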