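-- Statement S07 (row 7): every weight-2 cusp form of level Gamma0(2) is zero.
-- Proof: the Sturm bound of the prelude with k = 2 and index(Gamma0 2) ≤ 4 needs only the
-- constant coefficient to vanish, which it does for a cusp form.
import Fermat.Statements.S07
import Fermat.Agent.Lib.Level.SmallLevel

set_option autoImplicit false
open WeierstrassCurve WeierstrassCurve.Affine WeierstrassCurve.Affine.Point
open CuspForm ModularFormClass UpperHalfPlane
open ModularForm

namespace Fermat.Agent.S07

theorem result (f : CuspForm (CongruenceSubgroup.Gamma0 2) 2) : f = 0 := by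
  refine Fermat.Agent.Lib.Level.cuspForm_eq_zero_of_sturm_eq_zero ?_ f
  have h := Fermat.Agent.Lib.Level.index_Gamma0_two_le
  have h2 : ((2 : ℤ) * ((CongruenceSubgroup.Gamma0 2).index : ℤ)).toNat
      = 2 * (CongruenceSubgroup.Gamma0 2).index := by
    have : ((2 : ℤ) * ((CongruenceSubgroup.Gamma0 2).index : ℤ))
        = ((2 * (CongruenceSubgroup.Gamma0 2).index : ℕ) : ℤ) := by push_cast; ring
    rw [this, Int.toNat_natCast]
  rw [h2]
  omega

end Fermat.Agent.S07
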