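-- Statement S08 (row 7): every weight-2 cusp form of level Gamma0(1) is zero.
-- Proof: the Sturm bound of the prelude with k = 2 and index(Gamma0 1) = 1 needs only the
-- constant coefficient to vanish, which it does for a cusp form.
import Fermat.Statements.S08
import Fermat.Agent.Lib.Level.SmallLevel

set_option autoImplicit false
open WeierstrassCurve WeierstrassCurve.Affine WeierstrassCurve.Affine.Point
open CuspForm ModularFormClass UpperHalfPlane
open ModularForm

namespace Fermat.Agent.S08

theorem result (f : CuspForm (CongruenceSubgroup.Gamma0 1) 2) : f = 0 := by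
  refine Fermat.Agent.Lib.Level.cuspForm_eq_zero_of_sturm_eq_zero ?_ f
  rw [Fermat.Agent.Lib.Level.index_Gamma0_one]
  norm_num

end Fermat.Agent.S08
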