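-- Statement S10: the mod-p representation of the Frey curve has no Galois-stable cofixed line
-- for p ∈ {5, 7, 13}.
-- Proof: there is no Frey package with `p ∈ {5, 7, 13}`, by Kummer's proof of Fermat's Last Theorem
-- for these exponents (`ℤ[ζ_p]` is a PID and Kummer's lemma holds for `p`).
import Fermat.Statements.S10
import Fermat.Agent.Lib.FltRegular.Frey
import Fermat.Agent.Lib.FltRegular.PID7
import Fermat.Agent.Lib.FltRegular.PID13
import Fermat.Agent.Lib.FltRegular.Kummer.P5
import Fermat.Agent.Lib.FltRegular.Kummer.P7
import Fermat.Agent.Lib.FltRegular.Kummer.P13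

set_option autoImplicit false
open WeierstrassCurve WeierstrassCurve.Affine WeierstrassCurve.Affine.Point
open CuspForm ModularFormClass UpperHalfPlane
open FreyPackage

namespace Fermat.Agent.S10

open Fermat.Agent.Lib.FltRegular in
theorem result (P : FreyPackage) (hp : P.p = 5 ∨ P.p = 7 ∨ P.p = 13) : ¬ HasGaloisStableCofixedLine (K := AlgebraicClosure ℚ) ℚ P.freyCurve P.p := by
  exfalso
  rcases hp with hp | hp | hp
  · have := cyclotomicField_isCyclotomicExtension 5
    exact freyPackage_false_of_pid_of_kummer P hp (CyclotomicField 5 ℚ)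
      (IsCyclotomicExtension.Rat.five_pid _) (fun u h => Kummer.kummer_lemma_five _ u h)
  · have := cyclotomicField_isCyclotomicExtension 7
    exact freyPackage_false_of_pid_of_kummer P hp (CyclotomicField 7 ℚ)
      (seven_pid _) (fun u h => Kummer.kummer_lemma_seven _ u h)
  · have := cyclotomicField_isCyclotomicExtension 13
    exact freyPackage_false_of_pid_of_kummer P hp (CyclotomicField 13 ℚ)
      (PID13.thirteen_pid _) (fun u h => Kummer.kummer_lemma_thirteen _ u h)

end Fermat.Agent.S10
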