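-- Statement S11: the mod-11 representation of the Frey curve has no Galois-stable cofixed line.
-- Proof: there is no Frey package with `p = 11`, by Kummer's proof of Fermat's Last Theorem for the
-- exponent 11 (`ℤ[ζ₁₁]` is a PID and Kummer's lemma holds for 11).
import Fermat.Statements.S11
import Fermat.Agent.Lib.FltRegular.Frey
import Fermat.Agent.Lib.FltRegular.PID11
import Fermat.Agent.Lib.FltRegular.Kummer.P11

set_option autoImplicit false
open WeierstrassCurve WeierstrassCurve.Affine WeierstrassCurve.Affine.Point
open CuspForm ModularFormClass UpperHalfPlane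
open FreyPackage

namespace Fermat.Agent.S11

open Fermat.Agent.Lib.FltRegular in
theorem result (P : FreyPackage) (hp : P.p = 11) : ¬ HasGaloisStableCofixedLine (K := AlgebraicClosure ℚ) ℚ P.freyCurve P.p := by
  exfalso
  have := cyclotomicField_isCyclotomicExtension 11
  exact freyPackage_false_of_pid_of_kummer P hp (CyclotomicField 11 ℚ) (eleven_pid _)
    (fun u h => Kummer.kummer_lemma_eleven _ u h)

end Fermat.Agent.S11
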