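-- S13 (row 12): if the mod-p representation of the Frey curve is reducible, it has a Galois-stable
-- cofixed line.  Team proof (elementary: no Tate curve, no formal groups, no Weil pairing, no S14):
-- assembly `ptm_S13_of_iface` (helper1, Lib/Mz: Minkowski + conjugacy of places + S05) along the
-- interface Lib/S13/Iface (lead):
--  (A) #E[p](Q̄) = p²  — helper3 (Lib/EN: x-only recursion, heights), second proof helper4 (MulRec);
--  (B) local analysis at p: inertia trivial modulo T = V ∩ E₁ (helper8 Lib/S13/Loc*, helper9 Lib/GC),
--      supersingular type is irreducible via the product formula (helper3/4/9/1 Lib/EN, Lib/Mz) and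
--      rationality of Galois-stable products (helper5 Lib/KW);
--  (C) p-th powers of inertia at 2 act trivially, (D) no rational point of order p — the prime-2
--      package (helper2 Lib/F2 level law at residue characteristic 2, helper5 GenE1, helper7 DiffTwo /
--      NoRatE0, helper6 Wire*).
import Fermat.Statements.S13
import Fermat.Agent.Lib.Mz.IfaceAssembly
import Fermat.Agent.Lib.EN.FreyCard
import Fermat.Agent.Lib.EN.LocalPB
import Fermat.Agent.Lib.F2.WireLocal2Final
import Fermat.Agent.Lib.F2.WireNoRatFinal

set_option autoImplicit false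
open WeierstrassCurve WeierstrassCurve.Affine WeierstrassCurve.Affine.Point
open CuspForm ModularFormClass UpperHalfPlane
open FreyPackage

namespace Fermat.Agent.S13

theorem result (P : FreyPackage) (hred : ¬ GaloisRepIsIrreducible (K := AlgebraicClosure ℚ) ℚ P.freyCurve P.p) : HasGaloisStableCofixedLine (K := AlgebraicClosure ℚ) ℚ P.freyCurve P.p :=
  Fermat.Agent.Lib.Mz.ptm_S13_of_iface Fermat.Agent.Lib.EN.ent_ifaceCard
    Fermat.Agent.Lib.EN.ent_ifaceLocalP Fermat.Agent.Lib.F2.ftx_s13_ifaceLocal2
    Fermat.Agent.Lib.F2.ftx_s13_ifaceNoRatPt P hred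

end Fermat.Agent.S13
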