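import Fermat.Statements.S09
import Fermat.Agent.S10
import Fermat.Agent.S11
import Fermat.Agent.S12
import Fermat.Agent.S13

set_option autoImplicit false
open WeierstrassCurve WeierstrassCurve.Affine WeierstrassCurve.Affine.Point
open CuspForm ModularFormClass UpperHalfPlane
open FreyPackage

namespace Fermat.Agent.S09

theorem result (P : FreyPackage) : GaloisRepIsIrreducible (K := AlgebraicClosure ℚ) ℚ P.freyCurve P.p := by
  by_contra hred
  have hline := Fermat.Agent.S13.result P hred
  have hpp := P.pp
  have h5 := P.hp5
  by_cases h17 : 17 ≤ P.p
  · exact Fermat.Agent.S12.result P h17 hline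
  · rw [not_le] at h17
    have hcases : P.p = 5 ∨ P.p = 7 ∨ P.p = 11 ∨ P.p = 13 := by
      generalize P.p = p at hpp h5 h17
      interval_cases p
      · exact Or.inl rfl
      · exact absurd hpp (by norm_num)
      · exact Or.inr (Or.inl rfl)
      · exact absurd hpp (by norm_num)
      · exact absurd hpp (by norm_num)
      · exact absurd hpp (by norm_num)
      · exact Or.inr (Or.inr (Or.inl rfl))
      · exact absurd hpp (by norm_num)
      · exact Or.inr (Or.inr (Or.inr rfl))
      · exact absurd hpp (by norm_num)
      · exact absurd hpp (by norm_num)
      · exact absurd hpp (by norm_num)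
    rcases hcases with h | h | h | h
    · exact Fermat.Agent.S10.result P (Or.inl h) hline
    · exact Fermat.Agent.S10.result P (Or.inr (Or.inl h)) hline
    · exact Fermat.Agent.S11.result P h hline
    · exact Fermat.Agent.S10.result P (Or.inr (Or.inr h)) hline

end Fermat.Agent.S09
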