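-- Statement S15 (Mazur's key step).  Programme M: the Eisenstein descent on `J₀(p)` (Selmer route,
-- `Lib/S15/M*.lean`), the moduli dictionary [D], the cusps, the reduction of the Hecke action [R],
-- [T''], [RED23] (`Lib/S15/GTop.lean`); final assembly `Lib/S15/MFinal.lean`.
import Fermat.Statements.S15
import Fermat.Agent.Lib.S15.MFinal
import Fermat.Agent.Lib.S15.GTop

set_option autoImplicit false
open WeierstrassCurve WeierstrassCurve.Affine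
open WeierstrassCurve

namespace Fermat.Agent.S15

theorem result
    {p : ℕ} (hp : p.Prime) (hp' : p ∉ ({2, 3, 5, 7, 13} : Finset ℕ))
    (W : WeierstrassCurve ℤ) (hΔ : W.Δ ≠ 0)
    (Q : ((W.map (Int.castRingHom ℚ))⁄(AlgebraicClosure ℚ)).Point)
    (hQfix : ∀ σ : AlgebraicClosure ℚ ≃ₐ[ℚ] AlgebraicClosure ℚ, σ • Q = Q)
    (hQord : addOrderOf Q = p)
    (h2Δ : (2 : ℤ) ∣ W.Δ) (h2c₄ : ¬ (2 : ℤ) ∣ W.c₄)
    (h2 : ∀ A : ValuationSubring (AlgebraicClosure ℚ), A.LiesOverPrime 2 → ¬ W.InZeroComponentAt A Q)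
    (h3Δ : (3 : ℤ) ∣ W.Δ) (h3c₄ : ¬ (3 : ℤ) ∣ W.c₄)
    (h3 : ∀ A : ValuationSubring (AlgebraicClosure ℚ), A.LiesOverPrime 3 → ¬ W.InZeroComponentAt A Q)
    {ℓ : ℕ} (hℓ : ℓ.Prime) (hℓp : ℓ ≠ p) (hℓΔ : (ℓ : ℤ) ∣ W.Δ) (hℓc₄ : ¬ (ℓ : ℤ) ∣ W.c₄)
    (A : ValuationSubring (AlgebraicClosure ℚ)) (hA : A.LiesOverPrime ℓ) :
    ¬ W.InZeroComponentAt A Q :=
  Fermat.Agent.Lib.S15.m15_final Fermat.Agent.Lib.S15.m15g_red23 hp hp' W hΔ Q hQfix hQord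
    h2Δ h2c₄ h2 h3Δ h3c₄ h3 hℓ hℓp hℓΔ hℓc₄ A hA

end Fermat.Agent.S15
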