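import Fermat.Statements.S16
import Fermat.Agent.Lib.M2.DualMain
import Fermat.Agent.Lib.M2.DualSmall
import Fermat.Agent.Lib.M2.EisIface2
import Fermat.Agent.Lib.M2.HTFinal
import Fermat.Agent.Lib.M2.TrSq
import Fermat.Agent.Lib.S16.FormsAssembly
import Fermat.Agent.Lib.S16.IFinal
import Fermat.Agent.Lib.S16.CLB

set_option autoImplicit false
open ModularCurve CuspForm
open ModularCurve

namespace Fermat.Agent.S16

open Fermat.Agent.Lib.S16 Fermat.Agent.Lib.M2 Fermat.Agent.Lib.M2.HT Fermat.Agent.Lib.M2.Tr in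
/-- Mazur: `#(𝕋 ⧸ I) = (p - 1) / gcd (p - 1) 12` for the Eisenstein ideal `I` of the integral Hecke
algebra `𝕋` of weight 2 and prime level `p`.

* `p < 7`: `S₂(Γ₀(p)) = 0` (`m2d_small`).
* `7 ≤ p`: duality `𝕋 × S₂(Γ₀(p); ℤ) → ℤ` (`m2d_main`) reduces the claim to
  (UB) a cusp form with integral coefficients congruent to the Eisenstein series `∑ σ'(k) q^k`
  modulo `M` forces `M ∣ n` (`s16_forms_of_noG`: the Eisenstein series `e_p`, the weight-4 Hecke
  trick for `r ≥ 5`, the `Tr(G²) ∈ ℂ·E₄` trick and the level-`qp` norm trick for `r ∈ {2, 3}`), and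
  (LB) an integer in `I` is divisible by `n` (`s16c_ifaceLB`: the Shimura character
  `Γ₀(p) → (ℤ/p)ˣ → ℤ/n` is a parabolic Eisenstein class which lifts to `Hom_par(Γ₀(p), ℤ)`). -/
theorem result
    (p : ℕ) [Fact p.Prime] :
    Nat.card (↥(heckeLatticeAlgebra p ∅) ⧸
        Ideal.map ((latticeRestrictHom p ∅).toRingHom.comp (heckeEvalForms p 2))
          (eisensteinIdeal p)) =
      eisensteinNumerator p := by
  rcases Nat.lt_or_ge p 7 with h7 | h7
  · exact m2d_small p h7
  · have hp2 : p ≠ 2 := by omega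
    exact m2d_main p
      (s16_forms_of_noG p h7 (m2e_ifaceEis p) (fun r hr hr5 => m2h_noG' p hp2 r hr hr5)
        (fun h => m2t_noG_three p h) (fun h => s16i_N4 p h7 h)
        (fun h => m2t_noG_two p h) (fun h => s16i_N6 p h7 h))
      (s16c_ifaceLB p)

end Fermat.Agent.S16
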