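-- Statement S19 (row 18): for a prime `ℓ` not dividing the level `p` and every `k`, the
-- `ℓ^k`-torsion of `J₀(p)(ℚ̄)` is, Galois-equivariantly, the group of `ℚ̄`-points of a finite flat
-- cocommutative Hopf algebra over `ℤ_(ℓ)` (programme W-A: good reduction of `X₀(M)` at a good
-- level, coordinates on the kernel of reduction, the closure ring, local orders, descent).
-- The statement below is byte-identical to the frozen statement ModularCurve.FermatFrozen.S19
-- (Fermat/Statements/S19.lean).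
import Fermat.Statements.S19
import Fermat.Agent.Lib.S19.Final

set_option autoImplicit false
open ModularCurve
open ModularCurve

namespace Fermat.Agent.S19

theorem result
    (p : ℕ) [NeZero p] (ℓ : ℕ) [Fact ℓ.Prime] (hℓp : ¬ ℓ ∣ p) (k : ℕ) :
    ∃ (H : Type) (_ : CommRing H) (_ : HopfAlgebra (GaloisRep.ratLocalizedAt ℓ) H),
      Module.Finite (GaloisRep.ratLocalizedAt ℓ) H ∧ Module.Flat (GaloisRep.ratLocalizedAt ℓ) H ∧
      Coalgebra.IsCocomm (GaloisRep.ratLocalizedAt ℓ) H ∧
      ∃ e : WithConv (H →ₐ[GaloisRep.ratLocalizedAt ℓ] AlgebraicClosure ℚ) ≃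
          ↥(Submodule.torsionBy ℤ (JZero p) ((ℓ : ℤ) ^ k)),
        (∀ f g, e (f * g) = e f + e g) ∧
        ∀ (σ : AlgebraicClosure ℚ ≃ₐ[ℚ] AlgebraicClosure ℚ)
          (f g : WithConv (H →ₐ[GaloisRep.ratLocalizedAt ℓ] AlgebraicClosure ℚ)),
          (∀ h : H, g h = σ (f h)) → ((e g : JZero p)) = σ • (e f : JZero p) :=
  Fermat.Agent.Lib.S19.s19_closed p ℓ hℓp k

end Fermat.Agent.S19
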