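-- S24 (row 23): the genus of the function field Q̄(j(q^d) : d ∣ N) of X₀(N) equals genusFormula N.
-- Team proof (S24 work packages, Fermat/Agent/Lib/FF/*): function-field generalities (helper6),
-- counting squeeze (helper2), norm trick (helper4), differentials + interface (helper9),
-- analytic model (helper5), level-one j (helper8), cusps/elliptic points (helper3),
-- formal↔analytic bridge (helper7), degree + bridge glue (helper1), Hurwitz assembly (helper8/helper5).
import Fermat.Statements.S24
import Fermat.Agent.Lib.FF.AssemblyFinal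
import Fermat.Agent.Lib.FF.BridgePsi
import Fermat.Agent.Lib.FF.DegreeBridgeModel

set_option autoImplicit false
open ModularCurve

namespace Fermat.Agent.S24

open Fermat.Agent.Lib.FF in
theorem result (N : ℕ) [NeZero N]
    [AlgebraicCurve.HasCanonicalDivisor (K := AlgebraicClosure ℚ) (F := ↥(ModularCurve.modularFunctionFieldBar N))] :
    (AlgebraicCurve.genus (AlgebraicClosure ℚ) ↥(ModularCurve.modularFunctionFieldBar N) : ℚ)
      = ModularCurve.genusFormula N :=
  ffh_genus_of_ffg_bridge N ffb_iota
    (ffg_phi ffb_iota (ffb_psi N : ffg_A N →+* ffm_R N) (ffb_psi_isLaurent N))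
    (ffg_isBridge_phi ffb_iota (ffb_psi N : ffg_A N →+* ffm_R N) (ffb_psi_isLaurent N))
    (ffg_phi_const ffb_iota (ffb_psi N : ffg_A N →+* ffm_R N) (ffb_psi_isLaurent N))

end Fermat.Agent.S24
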