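-- Statement S27: the function field of a curve of genus `g` over an algebraically closed field of
-- characteristic `0` has exactly `ℓ^{2gk}` divisor classes of degree `0` killed by `ℓ^k`.
-- Programme Z: [BC] (helper2, helper3, helper1) + the reduction half (helper5, helper4, helper9,
-- helper6, helper8, helper2, helper7, helper1) + the arithmetic half (helper7, helper8, helper1,
-- helper3, helper6).
import Fermat.Statements.S27
import Fermat.Agent.Lib.S27.BFinal
import Fermat.Agent.Lib.S27.ZMFinal
import Fermat.Agent.Lib.S27.RGr

set_option autoImplicit false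
set_option autoImplicit false
open AlgebraicCurve
open AlgebraicCurve AlgebraicCurve.Pic0

namespace Fermat.Agent.S27

theorem result
    (K F : Type*) [Field K] [Field F] [Algebra K F] [IsAlgClosed K] [CharZero K]
    [IsCurveOver K F] [Algebra.EssFiniteType K F]
    (ℓ : ℕ) [Fact ℓ.Prime] (k : ℕ) :
    Nat.card (Pic0.torsion K F (ℓ ^ k)) = ℓ ^ (2 * genusFF K F * k) :=
  Fermat.Agent.Lib.S27.s27b_bc Fermat.Agent.Lib.S27.s27r_small0
    Fermat.Agent.Lib.S27.s27z_modelExists K F ℓ k

end Fermat.Agent.S27
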