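-- Statement S29: a normalised weight-2 eigenform on Γ₀(N) has an attached mod-p Galois
-- representation (Plan K: Kummer map κ : J₀(N)(ℚ̄)[p] ≅ H_p, Hecke-equivariant; period
-- eigenvectors; Frobenius density; two-dimensional quotient).
import Fermat.Statements.S29
import Fermat.Agent.Lib.S29.KappaFinal
import Fermat.Agent.Lib.S29.GSTop
import Fermat.Agent.Lib.S29.PackFrey

set_option autoImplicit false
open CuspForm CuspForm.IsNormalizedEigenform

namespace Fermat.Agent.S29

theorem result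
    {N : ℕ} {g : CuspForm (CongruenceSubgroup.Gamma0 N) 2} (hg : g.IsNormalizedEigenform)
    {p : ℕ} (hp : p.Prime) {k : Type} [Field k] [CharP k p]
    (φ : integralClosure ℤ ℂ →+* k) :
    ∃ ρ : ResidualGaloisRep k, ρ.IsAttachedTo g φ ∧
      ∀ ℓ : ℕ, ℓ.Prime → ¬ ℓ ∣ N * p → ρ.IsUnramifiedAt ℓ :=
  Fermat.Agent.Lib.S29.s29pk_S29
    (Fermat.Agent.Lib.S29.s29g_GSOut Fermat.Agent.Lib.S29.s29a_eigenSupportFinal) hg hp φ

end Fermat.Agent.S29
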