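-- Statement S37 (row 36): Eichler–Shimura congruence relation in the packaged form
-- `SpecializationExists` for `JZero N`.  The statement below is byte-identical to the frozen
-- statement ModularCurve.FermatFrozen.S37 (Fermat/Statements/S37.lean).
--
-- Proof (team moonshot M-B): `s37x_final` (Lib/S37/XFinal) reduces the statement to
--   * `s37x_Good`     — at every good level M (ℓ ∤ M, and ℓ ≥ 5 or (ℓ = 3, 2 ∣ M) or (ℓ = 2, 3 ∣ M))
--                       the Prelude's `reductionModL A M` has its inputs, is inertia-invariant and
--                       satisfies the Eichler–Shimura relation; obtained by `s37x_good_of` from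
--       - `s37r12_exists : s37x_RExists` (Lib/S37/RClose): existence of the place reduction
--         (two-chart Gauss-valuation model of X₀(M) over the valuation ring A ⊆ ℚ̄),
--       - `s37e_es : s37x_ES` (Lib/S37/EHecke): the Eichler–Shimura relation for `reductionModL`;
--   * `s37l_transfer : s37x_Transfer` (Lib/S37/LTransfer): level transfer dN → N for ℓ ∈ {2, 3}.
import Fermat.Statements.S37
import Fermat.Agent.Lib.S37.XGood
import Fermat.Agent.Lib.S37.EHecke
import Fermat.Agent.Lib.S37.LTransfer
import Fermat.Agent.Lib.S37.RClose

set_option autoImplicit false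
open ModularCurve

namespace Fermat.Agent.S37

open Fermat.Agent.Lib.S37 in
theorem result (N p : ℕ) [NeZero N] (hcomm : ModularCurve.HeckeOperatorsCommuteBar N) : letI := ModularCurve.heckeModuleBar N; ∀ (_ : SMulCommClass (AlgebraicClosure ℚ ≃ₐ[ℚ] AlgebraicClosure ℚ) ModularCurve.HeckeAlg (ModularCurve.JZero N)), ModularCurve.SpecializationExists (K := ℚ) (L := AlgebraicClosure ℚ) N p (ModularCurve.JZero N) :=
  s37x_final (s37x_good_of s37r12_exists s37e_es) s37l_transfer N p hcomm

end Fermat.Agent.S37
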