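import Fermat.Statements.S41
import Fermat.Agent.Lib.S41.Top
import Fermat.Agent.Lib.S41.ANonEis
import Fermat.Agent.Lib.S41.Form
import Fermat.Agent.Lib.S41.GMain2
import Fermat.Agent.Lib.S41.KFinal

set_option autoImplicit false
open WeierstrassCurve WeierstrassCurve.Affine WeierstrassCurve.Affine.Point
open scoped CongruenceSubgroup
open WeierstrassCurve

namespace Fermat.Agent.S41

theorem result
    (E : WeierstrassCurve ℚ) [E.IsElliptic] {W : WeierstrassCurve ℤ} (hW : W.IsIntegralModelOf E)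
    {p N q' : ℕ} (hp : p.Prime) (hp2 : p ≠ 2) (hN : 0 < N) (hq' : q'.Prime) (hq'N : ¬ q' ∣ N) (hq'p : q' ≠ p)
    (hirr : GaloisRepIsIrreducible (K := AlgebraicClosure ℚ) ℚ E p)
    (f : CuspForm (CongruenceSubgroup.Gamma0 N) 2) (𝔪 : Ideal (integralClosure ℤ ℂ))
    (hf : f.IsNormalizedEigenform) (hmax : 𝔪.IsMaximal) (hpm : (p : integralClosure ℤ ℂ) ∈ 𝔪)
    (hcong : ∀ ℓ : ℕ, ℓ.Prime → W.IsGoodPrimeFor ℓ → ¬ ℓ ∣ N → ℓ ≠ p →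
      ∃ a : integralClosure ℤ ℂ, (a : ℂ) = ModularFormClass.qCoeff f ℓ ∧
        a - ((W.apOfModel ℓ : ℤ) : integralClosure ℤ ℂ) ∈ 𝔪)
    (hLR : ∃ a : integralClosure ℤ ℂ, (a : ℂ) = ModularFormClass.qCoeff f q' ∧
      a ^ 2 - ((q' : integralClosure ℤ ℂ) + 1) ^ 2 ∈ 𝔪) :
    ∃ (g : CuspForm (CongruenceSubgroup.Gamma0 (N * q')) 2) (𝔪' : Ideal (integralClosure ℤ ℂ)),
      g.IsNormalizedEigenform ∧ 𝔪'.IsMaximal ∧ (p : integralClosure ℤ ℂ) ∈ 𝔪' ∧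
      (∀ ℓ : ℕ, ℓ.Prime → W.IsGoodPrimeFor ℓ → ¬ ℓ ∣ N * q' → ℓ ≠ p →
        ∃ a : integralClosure ℤ ℂ, (a : ℂ) = ModularFormClass.qCoeff g ℓ ∧
          a - ((W.apOfModel ℓ : ℤ) : integralClosure ℤ ℂ) ∈ 𝔪') ∧
      g.IsNewAt q' :=
  Fermat.Agent.Lib.S41.s41_of_contracts Fermat.Agent.Lib.S41.s41a_nonEis
    (Fermat.Agent.Lib.S41.s41_coh_of_ihara2 Fermat.Agent.Lib.S41.s41_ihara2)
    Fermat.Agent.Lib.S41.s41f_form E hW hp hp2 hN hq' hq'N hq'p hirr f 𝔪 hf hmax hpm hcong hLR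

end Fermat.Agent.S41
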