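-- Statement S42: for the Frey package's prime p and every level M > 0 the property
-- EigenformResidualAttachmentAt M holds (consequence of the S29 package, Plan K).
import Fermat.Statements.S42
import Fermat.Agent.Lib.S29.KappaFinal
import Fermat.Agent.Lib.S29.GSTop
import Fermat.Agent.Lib.S29.PackFrey

set_option autoImplicit false
open FreyPackage

namespace Fermat.Agent.S42

theorem result (P : FreyPackage) :
    ∀ M : ℕ, 0 < M → P.EigenformResidualAttachmentAt M :=
  Fermat.Agent.Lib.S29.s29pk_S42
    (Fermat.Agent.Lib.S29.s29g_GSOut Fermat.Agent.Lib.S29.s29a_eigenSupportFinal) P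

end Fermat.Agent.S42
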