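-- Statement S49 (row 44): the Deligne–Serre lifting lemma for a lattice-realised formal eigensystem.
-- Proof: the realising form is an eigenvector modulo 3 for the full Hecke algebra acting on the
-- integral lattice; the lifting lemma (Fermat.Agent.Lib.Lifting.exists_eigenform_lift) lifts the
-- system of eigenvalues to characteristic zero.
import Fermat.Statements.S49
import Fermat.Agent.Lib.Hecke.Lifting

set_option autoImplicit false
open CuspForm EisensteinWeightOne CongruenceSubgroup ModularFormClass
open FLT FLT.AbstractIntegralStructure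

namespace Fermat.Agent.S49

open Fermat.Agent.Lib.QCoeff Fermat.Agent.Lib.Lattice Fermat.Agent.Lib.Lifting

/-- `χ₋₃(p) ≡ p` modulo `3`. -/
theorem three_dvd_sub_chiNegThree (p : ℕ) : (3 : ℤ) ∣ (p : ℤ) - chiNegThree p := by
  unfold chiNegThree
  split_ifs <;> omega

/-- The weight one Eisenstein series is `1` modulo `3`. -/
theorem three_dvd_coeff_bridgeProduct_sub (a : ℕ → ℤ) (n : ℕ) :
    (3 : ℤ) ∣ (bridgeProduct a).coeff n - a n := by
  have hE : e1Chi3In ℤ = 1 + PowerSeries.C (3 : ℤ) *
      PowerSeries.mk (fun n ↦ if n = 0 then 0 else 2 * sigmaChi n) := by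
    ext m
    simp only [e1Chi3In, e1Chi3, PowerSeries.coeff_map, PowerSeries.coeff_mk, map_add,
      PowerSeries.coeff_one, PowerSeries.coeff_C_mul, Int.coe_castRingHom, Int.cast_id]
    split_ifs <;> simp
    ring
  rw [bridgeProduct, hE, mul_add, mul_one, map_add, PowerSeries.coeff_mk, add_sub_cancel_left,
    mul_left_comm, PowerSeries.coeff_C_mul]
  exact dvd_mul_right _ _

theorem result
    {N : ℕ} [NeZero N] (h : CuspForm.HasIntegralBasis N) {a : ℕ → ℤ}
    (heig : FormalHecke.IsEigensystem
      (fun ℓ => if ℓ ∣ N then 0 else ((chiNegThree ℓ : ℤ) : ℤ)) a)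
    (hreal : CuspForm.IsLatticeRealized N a) :
    ∃ (f : CuspForm (Gamma0 N) 2) (_ : f.IsNormalizedEigenform)
      (𝔪' : Ideal (integralClosure ℤ ℂ)), 𝔪'.IsMaximal ∧
      ((3 : ℕ) : integralClosure ℤ ℂ) ∈ 𝔪' ∧
      ∀ (ℓ : ℕ) (_ : ℓ.Prime) (_ : ¬ ℓ ∣ N),
        ∃ c : integralClosure ℤ ℂ, (c : ℂ) = ModularFormClass.qCoeff f ℓ ∧
          c - (a ℓ : integralClosure ℤ ℂ) ∈ 𝔪' := by
  obtain ⟨f₀, hf₀, af, haf, hcong⟩ := hreal
  -- the coefficients of `f₀` are congruent to `a` modulo 3
  have hmod : ∀ n, (3 : ℤ) ∣ af n - a n := by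
    intro n
    have := dvd_add (hcong n) (three_dvd_coeff_bridgeProduct_sub a n)
    simpa using this
  have hspan : Submodule.span ℂ (CuspForm.intLattice N 2 : Set (CuspForm (Gamma0 N) 2)) = ⊤ := by
    rw [← qIntegralSet_eq]
    exact h
  have hmem : f₀ ∈ CuspForm.intLattice N 2 := by
    have : f₀ ∈ (CuspForm.intLattice N 2 : Set (CuspForm (Gamma0 N) 2)) := by
      rw [← qIntegralSet_eq]
      exact hf₀
    exact this
  have hME : ModEigen N 3 f₀ a := by
    refine ⟨hmem, ?_, ?_, ?_⟩
    · intro p hp hpN n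
      have hrel := heig.2 p hp n
      simp only [if_neg hpN] at hrel
      by_cases hdvd : p ∣ n
      · rw [if_pos hdvd] at hrel
        have key : (3 : ℤ) ∣ af (n * p) + (p : ℤ) * af (n / p) - a p * af n := by
          have e : af (n * p) + (p : ℤ) * af (n / p) - a p * af n =
              (af (n * p) - a (n * p)) + (p : ℤ) * (af (n / p) - a (n / p))
              - a p * (af n - a n) + ((p : ℤ) - chiNegThree p) * a (n / p)
              + (a (p * n) + chiNegThree p * a (n / p) - a p * a n) := by
            rw [mul_comm n p]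
            ring
          rw [e, hrel, sub_self, add_zero]
          exact dvd_add (dvd_sub (dvd_add (hmod _) (Dvd.dvd.mul_left (hmod _) _))
            (Dvd.dvd.mul_left (hmod _) _)) (Dvd.dvd.mul_right (three_dvd_sub_chiNegThree p) _)
        obtain ⟨m, hm⟩ := key
        refine ⟨m, ?_⟩
        rw [qCoeff_sub, qCoeff_zsmul, qCoeff_heckeTLin hp hpN, if_pos hdvd, ← haf, ← haf, ← haf]
        have : ((2 : ℤ) - 1) = 1 := by norm_num
        rw [this, zpow_one]
        have := congrArg (Int.cast : ℤ → ℂ) hm
        push_cast at this ⊢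
        linear_combination this
      · rw [if_neg hdvd] at hrel
        have key : (3 : ℤ) ∣ af (n * p) - a p * af n := by
          have e : af (n * p) - a p * af n =
              (af (n * p) - a (n * p)) - a p * (af n - a n)
              + (a (p * n) + chiNegThree p * 0 - a p * a n) := by
            rw [mul_comm n p]
            ring
          rw [e, hrel, sub_self, add_zero]
          exact dvd_sub (hmod _) (Dvd.dvd.mul_left (hmod _) _)
        obtain ⟨m, hm⟩ := key
        refine ⟨m, ?_⟩
        rw [qCoeff_sub, qCoeff_zsmul, qCoeff_heckeTLin hp hpN, if_neg hdvd, ← haf, ← haf]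
        have := congrArg (Int.cast : ℤ → ℂ) hm
        push_cast at this ⊢
        linear_combination this
    · intro p hp hpN n
      have hrel := heig.2 p hp n
      simp only [if_pos hpN, zero_mul, add_zero] at hrel
      have key : (3 : ℤ) ∣ af (n * p) - a p * af n := by
        have e : af (n * p) - a p * af n =
            (af (n * p) - a (n * p)) - a p * (af n - a n) + (a (p * n) - a p * a n) := by
          rw [mul_comm n p]
          ring
        rw [e, hrel, sub_self, add_zero]
        exact dvd_sub (hmod _) (Dvd.dvd.mul_left (hmod _) _)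
      obtain ⟨m, hm⟩ := key
      refine ⟨m, ?_⟩
      rw [qCoeff_sub, qCoeff_zsmul, qCoeff_heckeULin hp hpN, ← haf, ← haf]
      have := congrArg (Int.cast : ℤ → ℂ) hm
      push_cast at this ⊢
      linear_combination this
    · refine ⟨af 1, (haf 1).symm, ?_⟩
      obtain ⟨t, ht⟩ := hmod 1
      rw [heig.1] at ht
      exact ⟨1, -t, by linarith⟩
  obtain ⟨g, hg, Q, hQmax, h3, hQ⟩ :=
    exists_eigenform_lift hspan hME Int.prime_three
  refine ⟨g, hg, Q, hQmax, ?_, fun ℓ hℓ _ ↦ ?_⟩
  · simpa using h3
  · exact hQ ℓ hℓ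

end Fermat.Agent.S49
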