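-- Statement S51 (row 45): `WeierstrassCurve.modThreeOrFiveIrreducible`.
-- For a semistable integral Weierstrass model, the mod 3 or the mod 5 Galois representation is
-- irreducible.  Proof: otherwise the curve gives a non-cuspidal rational point on `X₀(15)`;
-- a 2-isogeny and an explicit 2-descent (on `15a2`) show that there are only four such points,
-- and their `j`-invariants contradict semistability at `5`.
import Fermat.Statements.S51
import Fermat.Agent.Lib.S51.Rational
import Fermat.Agent.Lib.S51.Endgame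
import Fermat.Agent.Lib.S51.Descent

set_option autoImplicit false
open WeierstrassCurve WeierstrassCurve.Affine WeierstrassCurve.Affine.Point
open CuspForm ModularFormClass UpperHalfPlane
open WeierstrassCurve

namespace Fermat.Agent.S51

theorem result (W : WeierstrassCurve ℤ) (hΔ : W.Δ ≠ 0) (hW : W.IsSemistableModel) : W.ModRepIsIrreducible 3 ∨ W.ModRepIsIrreducible 5 := by
  by_contra hcon
  rw [not_or] at hcon
  obtain ⟨h3, h5⟩ := hcon
  have hΔ' : (W.map (Int.castRingHom ℚ)).Δ ≠ 0 := by
    rw [WeierstrassCurve.map_Δ]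
    simpa using hΔ
  obtain ⟨x₀, x₁, hx₀, hx₁, hσ⟩ :=
    Fermat.Agent.Lib.S51.data_of_reducible (W.map (Int.castRingHom ℚ)) hΔ' h3 h5
  obtain ⟨v, s, k, hv, hk, hs, hk', hrel⟩ :=
    Fermat.Agent.Lib.S51.exists_rational_point (W.map (Int.castRingHom ℚ)) hΔ' x₀ x₁ hx₀ hx₁ hσ
  have hmem := Fermat.Agent.Lib.S51.k_mem_of_rat_points Fermat.Agent.Lib.S51.rat_points
    v s k hv hk hs hk'
  rw [WeierstrassCurve.map_Δ, WeierstrassCurve.map_c₄] at hrel
  refine Fermat.Agent.Lib.S51.no_semistable W.c₄ W.Δ k hmem (by simpa using hrel) ?_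
  have := hW 5 (by norm_num)
  simpa using this

end Fermat.Agent.S51
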