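-- Statement S57 (row 51): patching, descent step.
import Fermat.Statements.S57
import Fermat.Agent.S57.Patching

set_option autoImplicit false
open Algebra Algebra.PatchingLevel

namespace Fermat.Agent.S57

theorem result
    {𝒪 : Type} [CommRing 𝒪] [IsDomain 𝒪] [IsDiscreteValuationRing 𝒪]
    {r : ℕ} {R : Type} [CommRing R] [Algebra 𝒪 R]
    {M : Type} [AddCommGroup M] [Module R M] [Nontrivial M]
    (L : Algebra.PatchingLevel 𝒪 r R M ⊥) :
    Module.Free R M ∧ Module.annihilator R M = ⊥ ∧
      RingHom.ker L.ψ = Ideal.span (Set.range fun i : Fin r => L.φ (MvPowerSeries.X i)) := by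
  obtain ⟨ι, hι, ⟨b⟩⟩ := free_M L
  have hfree : Module.Free R M := Module.Free.of_basis b
  refine ⟨hfree, ?_, ker_ψ_eq L⟩
  rw [Module.annihilator_eq_bot]
  infer_instance

end Fermat.Agent.S57
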