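-- Statement S59 (row 53): modularity lifting at `p ∈ {3, 5}` from a residually modular level `M₀` with `p² ∤ M₀` and
-- `q³ ∤ M₀` for the primes `q ≠ p`.  The proof is `Fermat.Agent.Lib.S59.s59g_S59_final` (Lib/S59/GFinal.lean): the adapter
-- `s59g_S59_openZj` (Lib/S59/GLeavesZj.lean, Programme (R2)) with its three remaining fields closed by the abstract core
-- `Internal.s59m_finCore` (Lib/S59/MKerFin.lean).
import Fermat.Statements.S59
import Fermat.Agent.Lib.S59.GFinal

set_option autoImplicit false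
set_option autoImplicit false
open scoped WeierstrassCurve.Affine
open WeierstrassCurve

namespace Fermat.Agent.S59

theorem result (p : ℕ) (hp : p = 3 ∨ p = 5)
    (W : WeierstrassCurve ℤ) (hΔ : W.Δ ≠ 0) (hW : W.IsSemistableModel) (hirr : W.ModRepIsIrreducible p)
    (M₀ : ℕ) [NeZero M₀] (hres₀ : W.IsResiduallyModularOfLevel p M₀)
    (hM₀ : ¬ p ^ 2 ∣ M₀)
    (hM₀3 : ∀ q : ℕ, q.Prime → q ≠ p → ¬ q ^ 3 ∣ M₀) :
    Mlc1IsModularModelOfExactConductorLevel W :=
  Fermat.Agent.Lib.S59.s59g_S59_final p hp W hΔ hW hirr M₀ hres₀ hM₀ hM₀3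

end Fermat.Agent.S59
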